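import Mathlib.Algebra.BigOperators.Ring.Finset
import Mathlib.Data.Finset.Pi
import Mathlib.Data.Fintype.Pi
import Mathlib.Data.Nat.Choose.Sum
import Mathlib.Tactic.LinearCombination
import Mathlib.Tactic.Ring

/-!
# Rooted forests

A forest on `A` with roots `R` is its parent map: the identity off `A \ R`, every orbit in `A`
reaching `R`. Removing the roots gives a recursion for their number.
-/

set_option autoImplicit false

noncomputable section

open Finset

namespace FA.CayleyTrees

variable {α : Type*} [DecidableEq α] [Fintype α]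

/-- `f` is the parent map of a forest on `A` with roots `R`. -/
def IsForest (A R : Finset α) (f : α → α) : Prop :=
  (∀ v ∉ A \ R, f v = v) ∧ (∀ v ∈ A, f v ∈ A) ∧ ∀ v ∈ A, ∃ m : ℕ, f^[m] v ∈ R

open Classical in
/-- The forests on `A` with roots `R`. -/
def forests (A R : Finset α) : Finset (α → α) := univ.filter (IsForest A R)

theorem mem_forests {A R : Finset α} {f : α → α} : f ∈ forests A R ↔ IsForest A R f := by
  classical simp [forests]

theorem card_forests_self (A : Finset α) : #(forests A A) = 1 := by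
  rw [card_eq_one]
  refine ⟨id, eq_singleton_iff_unique_mem.2 ⟨mem_forests.2 ⟨fun _ _ => rfl, fun v hv => hv,
    fun v hv => ⟨0, hv⟩⟩, fun f hf => funext fun v => ?_⟩⟩
  exact (mem_forests.1 hf).1 v (by simp)

theorem card_forests_empty {A : Finset α} (hA : A.Nonempty) : #(forests A ∅) = 0 := by
  rw [card_eq_zero, eq_empty_iff_forall_notMem]
  intro f hf
  obtain ⟨v, hv⟩ := hA
  obtain ⟨m, hm⟩ := (mem_forests.1 hf).2.2 v hv
  exact notMem_empty _ hm

open Classical in
/-- The forests whose second generation is `S`. -/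
theorem card_fiber {A R S : Finset α} (hR : R ⊆ A) (hS : S ⊆ A \ R) :
    #((forests A R).filter fun f => (A \ R).filter (fun v => f v ∈ R) = S) =
      #R ^ #S * #(forests (A \ R) S) := by
  have hpi : #(S.pi fun _ => R) = #R ^ #S := by simp [card_pi]
  rw [← hpi, ← card_product]
  refine card_bij' (fun f _ => (fun v _ => f v, fun v => if v ∈ (A \ R) \ S then f v else v))
    (fun gh _ v => if hv : v ∈ S then gh.1 v hv else gh.2 v) ?_ ?_ ?_ ?_
  · intro f hf
    obtain ⟨hf, hfS⟩ := mem_filter.1 hf
    obtain ⟨hid, hmap, hreach⟩ := mem_forests.1 hf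
    have hSmem : ∀ v, v ∈ S ↔ v ∈ A \ R ∧ f v ∈ R := fun v => by
      conv_lhs => rw [← hfS]
      rw [mem_filter]
    refine mem_product.2 ⟨Finset.mem_pi.2 fun v hv => ((hSmem v).1 hv).2,
      mem_forests.2 ⟨fun v hv => if_neg hv, fun v hv => ?_, ?_⟩⟩
    · dsimp only
      split_ifs with h
      · obtain ⟨hvB, hvS⟩ := mem_sdiff.1 h
        exact mem_sdiff.2 ⟨hmap v (mem_sdiff.1 hvB).1, fun hr => hvS ((hSmem v).2 ⟨hvB, hr⟩)⟩
      · exact hv
    · suffices key : ∀ m : ℕ, ∀ v ∈ A \ R, f^[m] v ∈ R →
          ∃ j : ℕ, (fun u => if u ∈ (A \ R) \ S then f u else u)^[j] v ∈ S by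
        intro v hv
        obtain ⟨m, hm⟩ := hreach v (mem_sdiff.1 hv).1
        exact key m v hv hm
      intro m
      induction m with
      | zero => exact fun v hv hm => absurd hm (mem_sdiff.1 hv).2
      | succ m ih =>
        intro v hv hm
        by_cases hvS : v ∈ S
        · exact ⟨0, hvS⟩
        obtain ⟨j, hj⟩ := ih (f v) (mem_sdiff.2 ⟨hmap v (mem_sdiff.1 hv).1,
          fun hr => hvS ((hSmem v).2 ⟨hv, hr⟩)⟩) hm
        refine ⟨j + 1, ?_⟩
        rw [Function.iterate_succ_apply, if_pos (mem_sdiff.2 ⟨hv, hvS⟩)]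
        exact hj
  · intro gh hgh
    obtain ⟨hg, hh⟩ := mem_product.1 hgh
    obtain ⟨hid, hmap, hreach⟩ := mem_forests.1 hh
    rw [Finset.mem_pi] at hg
    set f : α → α := fun v => if hv : v ∈ S then gh.1 v hv else gh.2 v with hf
    have h1 : ∀ v (hv : v ∈ S), f v ∈ R := fun v hv => by
      simp only [hf, dif_pos hv]
      exact hg v hv
    have h2 : ∀ v ∉ S, f v = gh.2 v := fun v hv => by simp [hf, hv]
    refine mem_filter.2 ⟨mem_forests.2 ⟨fun v hv => ?_, fun v hv => ?_, fun v hv => ?_⟩, ?_⟩
    · have hvS : v ∉ S := fun h => hv (hS h)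
      rw [h2 v hvS]
      exact hid v fun h => hv (mem_sdiff.1 h).1
    · by_cases hvS : v ∈ S
      · exact hR (h1 v hvS)
      rw [h2 v hvS]
      by_cases hvR : v ∈ R
      · rw [hid v fun h => (mem_sdiff.1 (mem_sdiff.1 h).1).2 hvR]
        exact hv
      · exact (mem_sdiff.1 (hmap v (mem_sdiff.2 ⟨hv, hvR⟩))).1
    · by_cases hvR : v ∈ R
      · exact ⟨0, hvR⟩
      suffices key : ∀ m : ℕ, ∀ u ∈ A \ R, gh.2^[m] u ∈ S → ∃ j : ℕ, f^[j] u ∈ R by
        obtain ⟨m, hm⟩ := hreach v (mem_sdiff.2 ⟨hv, hvR⟩)
        exact key m v (mem_sdiff.2 ⟨hv, hvR⟩) hm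
      intro m
      induction m with
      | zero => exact fun u _ hm => ⟨1, h1 u hm⟩
      | succ m ih =>
        intro u hu hm
        by_cases huS : u ∈ S
        · exact ⟨1, h1 u huS⟩
        obtain ⟨j, hj⟩ := ih (gh.2 u) (hmap u hu) hm
        refine ⟨j + 1, ?_⟩
        rw [Function.iterate_succ_apply, h2 u huS]
        exact hj
    · ext v
      rw [mem_filter]
      constructor
      · rintro ⟨hv, hvR⟩
        by_contra hvS
        rw [h2 v hvS] at hvR
        exact (mem_sdiff.1 (hmap v hv)).2 hvR
      · exact fun hv => ⟨hS hv, h1 v hv⟩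
  · intro f hf
    obtain ⟨hf, -⟩ := mem_filter.1 hf
    funext v
    by_cases hv : v ∈ S
    · simp [hv]
    · by_cases hvB : v ∈ A \ R
      · simp [hv, hvB]
      · dsimp only
        rw [dif_neg hv, if_neg fun h => hvB (mem_sdiff.1 h).1, (mem_forests.1 hf).1 v hvB]
  · intro gh hgh
    have hh := mem_forests.1 (mem_product.1 hgh).2
    refine Prod.ext (funext fun v => funext fun hv => dif_pos hv) (funext fun v => ?_)
    dsimp only
    split_ifs with h h'
    · exact absurd h' (mem_sdiff.1 h).2
    · rfl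
    · exact (hh.1 v h).symm

/-- The number of forests with `m` vertices and `s` roots. -/
def forestCount (m s : ℕ) : ℕ := if s = m then 1 else s * m ^ (m - s - 1)

theorem sum_forestCount (M k : ℕ) :
    ∑ s ∈ range (M + 1 + 1), (M + 1).choose s * (k ^ s * forestCount (M + 1) s) =
      k * (k + (M + 1)) ^ M := by
  rw [sum_range_succ', show forestCount (M + 1) 0 = 0 by simp [forestCount], mul_zero, mul_zero,
    add_zero, add_pow, mul_sum]
  refine sum_congr rfl fun t ht => ?_
  rcases eq_or_lt_of_le (Nat.lt_succ_iff.1 (mem_range.1 ht)) with rfl | hlt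
  · simp [forestCount, pow_succ']
  · rw [forestCount, if_neg (by omega), Nat.cast_id]
    obtain ⟨e, rfl⟩ := Nat.exists_eq_add_of_lt hlt
    rw [show t + e + 1 + 1 - (t + 1) - 1 = e by omega, show t + e + 1 - t = e + 1 by omega]
    have h := Nat.add_one_mul_choose_eq (t + e + 1) t
    calc (t + e + 1 + 1).choose (t + 1) * (k ^ (t + 1) * ((t + 1) * (t + e + 1 + 1) ^ e))
        = (t + e + 1 + 1).choose (t + 1) * (t + 1) * (k * k ^ t * (t + e + 1 + 1) ^ e) := by ring
      _ = _ := by rw [← h]; ring

/-- **Cayley's formula for forests.** -/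
theorem card_forests : ∀ (n : ℕ) (A R : Finset α), #A = n → R ⊆ A →
    #(forests A R) = forestCount #A #R := by
  classical
  intro n
  induction n using Nat.strong_induction_on with
  | _ n ih =>
    intro A R hn hR
    rcases eq_or_ne R A with rfl | hne
    · rw [card_forests_self, forestCount, if_pos rfl]
    have hlt : #R < #A := card_lt_card (hR.ssubset_of_ne hne)
    rcases R.eq_empty_or_nonempty with rfl | hRne
    · rw [card_forests_empty (card_pos.1 (by omega)), forestCount, if_neg hlt.ne,
        card_empty, zero_mul]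
    have hB : #(A \ R) = #A - #R := card_sdiff_of_subset hR
    have hpos := hRne.card_pos
    rw [card_eq_sum_card_fiberwise (t := (A \ R).powerset)
        (f := fun f : α → α => (A \ R).filter fun v => f v ∈ R)
        fun f _ => mem_powerset.2 (filter_subset _ _),
      sum_congr rfl fun S hS => (card_fiber hR (mem_powerset.1 hS)).trans
        (by rw [ih #(A \ R) (by omega) (A \ R) S rfl (mem_powerset.1 hS)]),
      sum_powerset_apply_card fun s => #R ^ s * forestCount #(A \ R) s]
    obtain ⟨M, hM⟩ : ∃ M, #(A \ R) = M + 1 := ⟨#(A \ R) - 1, by omega⟩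
    simp only [smul_eq_mul, hM]
    rw [sum_forestCount, forestCount, if_neg (by omega), show #A - #R - 1 = M by omega,
      show #R + (M + 1) = #A by omega]

end FA.CayleyTrees

end
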