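import Fermat.Agent.CayleyTrees.Forests
import Mathlib.Combinatorics.SimpleGraph.Acyclic
import Mathlib.Combinatorics.SimpleGraph.Metric

/-!
# Trees and parent maps
-/

set_option autoImplicit false

noncomputable section

open Finset

namespace FA.CayleyTrees

variable {α : Type*}

/-- The graph of a parent map. -/
def mapGraph (f : α → α) : SimpleGraph α := SimpleGraph.fromRel fun v w => f v = w

theorem mapGraph_adj {f : α → α} {v w : α} :
    (mapGraph f).Adj v w ↔ v ≠ w ∧ (f v = w ∨ f w = v) := by
  rw [mapGraph, SimpleGraph.fromRel_adj]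

variable [DecidableEq α] [Fintype α] {r : α} {f : α → α}

theorem forest_root (hf : IsForest univ {r} f) : f r = r := hf.1 r (by simp)

theorem forest_reach (hf : IsForest univ {r} f) (v : α) : ∃ m : ℕ, f^[m] v = r := by
  obtain ⟨m, hm⟩ := hf.2.2 v (mem_univ v)
  exact ⟨m, mem_singleton.1 hm⟩

theorem forest_no_two_cycle (hf : IsForest univ {r} f) {v : α} (hv : v ≠ r) : f (f v) ≠ v := by
  intro h
  obtain ⟨m, hm⟩ := forest_reach hf v
  have hall : ∀ j : ℕ, f^[j] v = v ∨ f^[j] v = f v := by
    intro j
    induction j with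
    | zero => exact Or.inl rfl
    | succ j ih =>
      rw [Function.iterate_succ_apply']
      rcases ih with e | e <;> rw [e]
      · exact Or.inr rfl
      · exact Or.inl h
  rcases hall m with e | e
  · exact hv (e.symm.trans hm)
  · rw [hm] at e
    exact hv (by rw [← h, ← e, forest_root hf])

theorem forest_ne (hf : IsForest univ {r} f) {v : α} (hv : v ≠ r) : f v ≠ v := fun h =>
  forest_no_two_cycle hf hv (by rw [h, h])

theorem mapGraph_connected (hf : IsForest univ {r} f) : (mapGraph f).Connected := by
  have key : ∀ m : ℕ, ∀ v, f^[m] v = r → (mapGraph f).Reachable v r := by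
    intro m
    induction m with
    | zero => exact fun v h => by rw [← h]; rfl
    | succ m ih =>
      intro v h
      rw [Function.iterate_succ_apply] at h
      rcases eq_or_ne (f v) v with e | e
      · rw [← e]
        exact ih _ h
      · exact (SimpleGraph.Adj.reachable (mapGraph_adj.2 ⟨e.symm, Or.inl rfl⟩)).trans (ih _ h)
  have hr : ∀ v, (mapGraph f).Reachable v r := fun v => by
    obtain ⟨m, hm⟩ := forest_reach hf v
    exact key m v hm
  exact (SimpleGraph.connected_iff_exists_forall_reachable _).2 ⟨r, fun v => (hr v).symm⟩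

theorem mapGraph_isTree (hf : IsForest univ {r} f) : (mapGraph f).IsTree := by
  classical
  rw [SimpleGraph.isTree_iff_connected_and_card]
  refine ⟨mapGraph_connected hf, ?_⟩
  have he : (mapGraph f).edgeFinset = (univ.erase r).image fun v => s(v, f v) := by
    ext e
    induction e using Sym2.ind with
    | _ a b =>
      simp only [SimpleGraph.mem_edgeFinset, SimpleGraph.mem_edgeSet, mapGraph_adj,
        Finset.mem_image, mem_erase, mem_univ, and_true, Sym2.eq_iff]
      constructor
      · rintro ⟨hne, h | h⟩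
        · exact ⟨a, fun e => hne (by rw [← h, e, forest_root hf]), Or.inl ⟨rfl, h⟩⟩
        · exact ⟨b, fun e => hne (by rw [← h, e, forest_root hf]), Or.inr ⟨rfl, h⟩⟩
      · rintro ⟨v, hv, ⟨rfl, rfl⟩ | ⟨rfl, rfl⟩⟩
        · exact ⟨(forest_ne hf hv).symm, Or.inl rfl⟩
        · exact ⟨forest_ne hf hv, Or.inr rfl⟩
  rw [Nat.card_eq_fintype_card, Nat.card_eq_fintype_card, ← SimpleGraph.edgeFinset_card, he,
    card_image_of_injOn, card_erase_of_mem (mem_univ r), card_univ]
  · have : 0 < Fintype.card α := Fintype.card_pos_iff.2 ⟨r⟩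
    omega
  · intro v hv w hw h
    rcases Sym2.eq_iff.1 h with ⟨h1, -⟩ | ⟨h1, h2⟩
    · exact h1
    · exact absurd (by rw [h2, ← h1]) (forest_no_two_cycle hf (mem_erase.1 hv).1)

theorem eq_of_mapGraph_eq {g : α → α} (hf : IsForest univ {r} f) (hg : IsForest univ {r} g)
    (h : mapGraph f = mapGraph g) : f = g := by
  have key : ∀ m : ℕ, ∀ v, f^[m] v = r → f v = g v := by
    intro m
    induction m with
    | zero =>
      intro v hv
      rw [Function.iterate_zero_apply] at hv
      rw [hv, forest_root hf, forest_root hg]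
    | succ m ih =>
      intro v hv
      rcases eq_or_ne v r with rfl | hvr
      · rw [forest_root hf, forest_root hg]
      have hadj : (mapGraph g).Adj v (f v) :=
        h ▸ mapGraph_adj.2 ⟨(forest_ne hf hvr).symm, Or.inl rfl⟩
      rcases (mapGraph_adj.1 hadj).2 with e | e
      · exact e.symm
      · exact absurd ((ih (f v) hv).trans e) (forest_no_two_cycle hf hvr)
  funext v
  obtain ⟨m, hm⟩ := forest_reach hf v
  exact key m v hm

theorem exists_forest_of_isTree {G : SimpleGraph α} (hG : G.IsTree) (r : α) :
    ∃ f, IsForest univ {r} f ∧ mapGraph f = G := by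
  have hstep : ∀ v, ∃ w, (v = r → w = r) ∧ (v ≠ r → G.Adj v w ∧ G.dist w r < G.dist v r) := by
    intro v
    rcases eq_or_ne v r with rfl | hv
    · exact ⟨v, fun _ => rfl, fun h => absurd rfl h⟩
    obtain ⟨p, hp⟩ := hG.connected.exists_walk_length_eq_dist v r
    cases p with
    | nil => exact absurd rfl hv
    | @cons _ w _ hadj q =>
      refine ⟨w, fun e => absurd e hv, fun _ => ⟨hadj, ?_⟩⟩
      have := SimpleGraph.dist_le q
      rw [SimpleGraph.Walk.length_cons] at hp
      omega
  choose f hf1 hf2 using hstep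
  have hf : IsForest univ {r} f := by
    refine ⟨fun v hv => ?_, fun v _ => mem_univ _, ?_⟩
    · have : v = r := by simpa using hv
      rw [this]
      exact hf1 r rfl
    · suffices key : ∀ n : ℕ, ∀ v, G.dist v r = n → ∃ m : ℕ, f^[m] v ∈ ({r} : Finset α) from
        fun v _ => key _ v rfl
      intro n
      induction n using Nat.strong_induction_on with
      | _ n ih =>
        intro v hv
        rcases eq_or_ne v r with rfl | hvr
        · exact ⟨0, mem_singleton_self _⟩
        obtain ⟨m, hm⟩ := ih _ (hv ▸ (hf2 v hvr).2) (f v) rfl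
        exact ⟨m + 1, by rwa [Function.iterate_succ_apply]⟩
  refine ⟨f, hf, ?_⟩
  have hle : mapGraph f ≤ G := by
    intro v w hvw
    obtain ⟨hne, e | e⟩ := mapGraph_adj.1 hvw
    · subst e
      exact (hf2 v fun h => hne (by rw [hf1 v h, h])).1
    · subst e
      exact ((hf2 w fun h => hne (by rw [hf1 w h, h])).1).symm
  exact le_antisymm hle ((SimpleGraph.isTree_iff_minimal_connected.1 hG).2
    (mapGraph_connected hf) hle)

/-- **Cayley's formula.** -/
theorem card_trees [Nonempty α] :
    Nat.card {G : SimpleGraph α // G.IsTree} = Fintype.card α ^ (Fintype.card α - 2) := by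
  classical
  obtain ⟨r⟩ := ‹Nonempty α›
  have e : {f // f ∈ forests (univ : Finset α) {r}} ≃ {G : SimpleGraph α // G.IsTree} := by
    refine Equiv.ofBijective (fun f => ⟨mapGraph f.1, mapGraph_isTree (mem_forests.1 f.2)⟩) ⟨?_, ?_⟩
    · intro f g h
      exact Subtype.ext (eq_of_mapGraph_eq (mem_forests.1 f.2) (mem_forests.1 g.2)
        (congrArg Subtype.val h))
    · rintro ⟨G, hG⟩
      obtain ⟨f, hf, hfG⟩ := exists_forest_of_isTree hG r
      exact ⟨⟨f, mem_forests.2 hf⟩, Subtype.ext hfG⟩
  rw [← Nat.card_congr e, Nat.card_eq_fintype_card, Fintype.card_coe,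
    card_forests _ univ {r} rfl (subset_univ _), forestCount, card_singleton, card_univ]
  split_ifs with h
  · rw [← h, one_pow]
  · rw [one_mul, Nat.sub_sub]

end FA.CayleyTrees

end
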